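import Fermat.Agent.S19.Formal.RLoc

set_option autoImplicit false

/-!
# S19 / FORMAL / F7 : an equivariant function with values in ONE valuation ring above `ℓ` is
integral over `ℤ_(ℓ)` (characteristic polynomial `∏_x (T - φ x)`).
-/

namespace Fermat.Agent.S19.Formal

open Polynomial

variable (ℓ : ℕ) [Fact ℓ.Prime]

theorem isIntegral_of_equivariant (A : ValuationSubring Qb) (hA : ((ℓ : Qb))⁻¹ ∉ A)
    {X : Type} [Finite X] (act : Gal → X → X) (hact : ∀ σ, Function.Bijective (act σ))
    (φ : X → Qb) (hφ : ∀ σ x, φ (act σ x) = σ (φ x)) (hφA : ∀ x, φ x ∈ A) :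
    IsIntegral (Rl ℓ) φ := by
  classical
  cases nonempty_fintype X
  set P : Qb[X] := ∏ x : X, (Polynomial.X - C (φ x)) with hP
  have hmonic : P.Monic := monic_prod_of_monic _ _ fun x _ => monic_X_sub_C _
  -- the coefficients are Galois fixed
  have hfix : ∀ σ : Gal, P.map (σ : Qb →+* Qb) = P := by
    intro σ
    rw [hP, Polynomial.map_prod]
    have : ∀ x : X, (Polynomial.X - C (φ x)).map (σ : Qb →+* Qb)
        = Polynomial.X - C (φ (act σ x)) := by
      intro x
      rw [Polynomial.map_sub, Polynomial.map_X, Polynomial.map_C, hφ]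
      rfl
    simp_rw [this]
    exact (Equiv.ofBijective _ (hact σ)).prod_comp fun x => Polynomial.X - C (φ x)
  -- the coefficients lie in `A`
  have hcoeffA : ∀ n, P.coeff n ∈ A := by
    have hlift : P ∈ Polynomial.lifts (A.subtype) := by
      rw [hP]
      refine Subsemiring.prod_mem _ fun x _ => ?_
      refine ⟨Polynomial.X - C ⟨φ x, hφA x⟩, ?_⟩
      rw [coe_mapRingHom, Polynomial.map_sub, Polynomial.map_X, Polynomial.map_C]
      rfl
    intro n
    obtain ⟨a, ha⟩ := (Polynomial.lifts_iff_coeff_lifts P).1 hlift n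
    rw [← ha]
    exact a.2
  have hcoeff : ∀ n, P.coeff n ∈ (algebraMap (Rl ℓ) Qb).range := by
    intro n
    refine mem_range_of_fixed_of_mem ℓ A hA _ (fun σ => ?_) (hcoeffA n)
    have := congrArg (fun Q => Q.coeff n) (hfix σ)
    simpa [Polynomial.coeff_map] using this
  have hlift : P ∈ Polynomial.lifts (algebraMap (Rl ℓ) Qb) :=
    (Polynomial.lifts_iff_coeff_lifts P).2 fun n => hcoeff n
  obtain ⟨P₀, hP₀, -, hP₀m⟩ := Polynomial.lifts_and_degree_eq_and_monic hlift hmonic
  refine ⟨P₀, hP₀m, ?_⟩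
  funext x
  have h1 : (eval₂ (algebraMap (Rl ℓ) (X → Qb)) φ P₀) x = eval₂ (algebraMap (Rl ℓ) Qb) (φ x) P₀ := by
    have := Polynomial.hom_eval₂ P₀ (algebraMap (Rl ℓ) (X → Qb)) (Pi.evalRingHom (fun _ => Qb) x) φ
    exact this
  rw [h1, ← Polynomial.eval_map, hP₀, hP, Polynomial.eval_prod]
  exact Finset.prod_eq_zero (Finset.mem_univ x) (by simp)

end Fermat.Agent.S19.Formal
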