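import Fermat.Agent.S19.Formal.Core
import Fermat.Agent.S19.Formal.Integral

set_option autoImplicit false

/-!
# S19 / FORMAL / front : the pairing criterion
-/

namespace Fermat.Agent.S19.Formal

variable (ℓ : ℕ) [Fact ℓ.Prime]

omit [Fact ℓ.Prime] in
theorem Rl_smul_apply {Y : Type} (r : Rl ℓ) (f : Y → Qb) (y : Y) :
    (r • f) y = algebraMap (Rl ℓ) Qb r * f y := by
  rw [Pi.smul_apply, Algebra.smul_def]

/-- the order of equivariant functions with values in `A`. -/
def eqOrder (A : ValuationSubring Qb) (hA : ((ℓ : Qb))⁻¹ ∉ A) {Y : Type} (actY : Gal → Y → Y) :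
    Subalgebra (Rl ℓ) (Y → Qb) where
  carrier := {φ | (∀ σ y, φ (actY σ y) = σ (φ y)) ∧ ∀ y, φ y ∈ A}
  mul_mem' := by
    rintro a b ⟨ha1, ha2⟩ ⟨hb1, hb2⟩
    exact ⟨fun σ y => by rw [Pi.mul_apply, Pi.mul_apply, ha1, hb1, map_mul],
      fun y => A.mul_mem _ _ (ha2 y) (hb2 y)⟩
  add_mem' := by
    rintro a b ⟨ha1, ha2⟩ ⟨hb1, hb2⟩
    exact ⟨fun σ y => by rw [Pi.add_apply, Pi.add_apply, ha1, hb1, map_add],
      fun y => A.add_mem _ _ (ha2 y) (hb2 y)⟩
  algebraMap_mem' r :=
    ⟨fun σ y => (gal_algebraMap_Rl ℓ σ r).symm, fun _ => algebraMap_Rl_mem ℓ A hA r⟩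

/-- **The pairing criterion** (only ONE valuation ring `A` above `ℓ` is needed). -/
theorem front {M Y : Type} [AddCommGroup M] [Finite M] [Finite Y]
    (actM : Gal → M → M) (actY : Gal → Y → Y) (hactY : ∀ σ, Function.Bijective (actY σ))
    (e : M → Y → Qb)
    (hmul : ∀ x x' y, e (x + x') y = e x y * e x' y)
    (heq : ∀ σ x y, e (actM σ x) (actY σ y) = σ (e x y))
    (hinj : ∀ x x', (∀ y, e x y = e x' y) → x = x')
    (A : ValuationSubring Qb) (hA : ((ℓ : Qb))⁻¹ ∉ A)
    (hint : ∀ x, e x ∈ Submodule.span A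
      {φ : Y → Qb | (∀ σ y, φ (actY σ y) = σ (φ y)) ∧ ∀ y, φ y ∈ A}) :
    Conclusion ℓ M actM := by
  classical
  cases nonempty_fintype M
  -- `actM σ` is bijective
  have hactM : ∀ σ, Function.Bijective (actM σ) := fun σ =>
    Finite.injective_iff_bijective.1 fun x x' h =>
      hinj x x' fun y => σ.injective (by rw [← heq, ← heq, h])
  set O := eqOrder ℓ A hA actY with hO
  -- a finite set of generators
  have h1 : ∀ x : M, ∃ S : Finset (Y → Qb), (↑S ⊆ (O : Set (Y → Qb))) ∧
      e x ∈ Submodule.span A (S : Set (Y → Qb)) := fun x =>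
    Submodule.mem_span_finite_of_mem_span (hint x)
  choose Sx hSx1 hSx2 using h1
  let S : Finset (Y → Qb) := Finset.univ.biUnion Sx
  have hSO : (S : Set (Y → Qb)) ⊆ (O : Set (Y → Qb)) := by
    intro φ hφ
    obtain ⟨x, -, hx⟩ := Finset.mem_biUnion.1 (Finset.mem_coe.1 hφ)
    exact hSx1 x (Finset.mem_coe.2 hx)
  let O' : Subalgebra (Rl ℓ) (Y → Qb) := Algebra.adjoin (Rl ℓ) (S : Set (Y → Qb))
  have hO'O : O' ≤ O := Algebra.adjoin_le hSO
  have hfg : O'.toSubmodule.FG := fg_adjoin_of_finite S.finite_toSet fun φ hφ =>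
    isIntegral_of_equivariant ℓ A hA actY hactY φ (hSO hφ).1 (hSO hφ).2
  have : Module.Finite (Rl ℓ) O' := Module.Finite.of_fg hfg
  have : IsPrincipalIdealRing (Rl ℓ) := isPrincipalIdealRing_Rl ℓ
  have : Module.IsTorsionFree (Rl ℓ) O' := ⟨fun r hr φ ψ h => by
    have hr0 : algebraMap (Rl ℓ) Qb r ≠ 0 := by
      intro h0
      exact hr.ne_zero (algebraMap_Rl_injective ℓ (by rw [h0, map_zero]))
    apply Subtype.ext
    funext y
    have h' : (r • (φ : Y → Qb)) y = (r • (ψ : Y → Qb)) y :=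
      congrFun (congrArg Subtype.val h) y
    rw [Rl_smul_apply, Rl_smul_apply] at h'
    exact mul_left_cancel₀ hr0 h'⟩
  obtain ⟨n, b⟩ : Σ n, Module.Basis (Fin n) (Rl ℓ) O' := Module.basisOfFiniteTypeTorsionFree'
  let v : Fin n → Y → Qb := fun i => (b i : Y → Qb)
  have hvO : ∀ i, v i ∈ O := fun i => hO'O (b i).2
  have hli : LinearIndependent (Rl ℓ) v :=
    b.linearIndependent.map' O'.toSubmodule.subtype (Submodule.ker_subtype _)
  have hliQ : LinearIndependent Qb v :=
    linearIndependent_of_equivariant ℓ actY (fun σ => (hactY σ).surjective) v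
      (fun i σ y => (hvO i).1 σ y) hli
  have huniq : ∀ α β : Fin n → Qb, (∑ i, α i • v i = ∑ i, β i • v i) → α = β := by
    intro α β h
    funext i
    have := Fintype.linearIndependent_iff.1 hliQ (fun i => α i - β i)
      (by simp only [sub_smul, Finset.sum_sub_distrib, h, sub_self]) i
    exact sub_eq_zero.1 this
  -- expansion of elements of `O'`
  have hexp : ∀ φ : O', (φ : Y → Qb) = ∑ i, algebraMap (Rl ℓ) Qb (b.repr φ i) • v i := by
    intro φ
    conv_lhs => rw [← b.sum_repr φ]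
    rw [AddSubmonoidClass.coe_finset_sum]
    refine Finset.sum_congr rfl fun i _ => ?_
    funext y
    show (b.repr φ i • (b i : Y → Qb)) y = _
    rw [Rl_smul_apply]
    rfl
  -- coordinates
  have h2 : ∀ x : M, ∃ a : Fin n → A, ∑ i, a i • v i = e x := by
    intro x
    have hle : Submodule.span A (Sx x : Set (Y → Qb)) ≤ Submodule.span A (Set.range v) := by
      refine Submodule.span_le.2 fun φ hφ => ?_
      have hφ' : φ ∈ O' := Algebra.subset_adjoin (Finset.mem_coe.2
        (Finset.mem_biUnion.2 ⟨x, Finset.mem_univ _, Finset.mem_coe.1 hφ⟩))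
      have h3 : φ = _ := hexp ⟨φ, hφ'⟩
      show φ ∈ Submodule.span A (Set.range v)
      rw [h3]
      refine Submodule.sum_mem _ fun i _ => ?_
      have h4 : algebraMap (Rl ℓ) Qb (b.repr ⟨φ, hφ'⟩ i) • v i
          = (⟨_, algebraMap_Rl_mem ℓ A hA (b.repr ⟨φ, hφ'⟩ i)⟩ : A) • v i := rfl
      rw [h4]
      exact Submodule.smul_mem _ _ (Submodule.subset_span ⟨i, rfl⟩)
    exact (Submodule.mem_span_range_iff_exists_fun A).1 (hle (hSx2 x))
  choose c' hc' using h2
  let c : Fin n → M → Qb := fun i x => (c' x i : Qb)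
  have hc : ∀ x, ∑ i, c i x • v i = e x := fun x => hc' x
  have hcy : ∀ x y, e x y = ∑ i, c i x * v i y := by
    intro x y
    rw [← hc x, Finset.sum_apply]
    rfl
  have hceq : ∀ i σ x, c i (actM σ x) = σ (c i x) := by
    intro i σ x
    refine congrFun (huniq (fun i => c i (actM σ x)) (fun i => σ (c i x)) ?_) i
    rw [hc]
    funext y'
    obtain ⟨y, rfl⟩ := (hactY σ).surjective y'
    rw [heq, hcy, map_sum, Finset.sum_apply]
    refine Finset.sum_congr rfl fun i _ => ?_
    rw [map_mul, Pi.smul_apply, (hvO i).1 σ y, smul_eq_mul]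
  refine core ℓ actM c (fun i j k => b.repr (b j * b k) i) hceq
    (fun i => isIntegral_of_equivariant ℓ A hA actM hactM (c i) (hceq i) fun x => (c' x i).2)
    (fun x x' h => hinj x x' fun y => by rw [hcy, hcy]; simp only [h]) ?_
  intro i x x'
  refine congrFun (huniq (fun i => c i (x + x')) (fun i => ∑ j, ∑ k,
    algebraMap (Rl ℓ) Qb (b.repr (b j * b k) i) * c j x * c k x') ?_) i
  rw [hc]
  funext y
  have hprod : ∀ j k, v j y * v k y
      = ∑ i, algebraMap (Rl ℓ) Qb (b.repr (b j * b k) i) * v i y := by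
    intro j k
    have h5 := congrFun (hexp (b j * b k)) y
    rw [Finset.sum_apply] at h5
    exact h5
  rw [hmul, hcy x, hcy x', Finset.sum_apply, Finset.sum_mul_sum]
  simp only [Pi.smul_apply, smul_eq_mul, Finset.sum_mul]
  calc ∑ j, ∑ k, c j x * v j y * (c k x' * v k y)
      = ∑ j, ∑ k, ∑ i, algebraMap (Rl ℓ) Qb (b.repr (b j * b k) i) * c j x * c k x' * v i y := by
        refine Finset.sum_congr rfl fun j _ => Finset.sum_congr rfl fun k _ => ?_
        have h6 : c j x * v j y * (c k x' * v k y) = (c j x * c k x') * (v j y * v k y) := by ring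
        rw [h6, hprod, Finset.mul_sum]
        exact Finset.sum_congr rfl fun i _ => by ring
    _ = ∑ j, ∑ i, ∑ k, algebraMap (Rl ℓ) Qb (b.repr (b j * b k) i) * c j x * c k x' * v i y :=
        Finset.sum_congr rfl fun j _ => Finset.sum_comm
    _ = ∑ i, ∑ j, ∑ k, algebraMap (Rl ℓ) Qb (b.repr (b j * b k) i) * c j x * c k x' * v i y :=
        Finset.sum_comm

end Fermat.Agent.S19.Formal
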