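import Mathlib
import Fermat.Prelude.Def_GaloisRep_Flat

set_option autoImplicit false

/-!
# S19 / FORMAL : notation
-/

namespace Fermat.Agent.S19.Formal

/-- `ℚ̄`. -/
abbrev Qb : Type := AlgebraicClosure ℚ

/-- the absolute Galois group. -/
abbrev Gal : Type := Qb ≃ₐ[ℚ] Qb

/-- `ℤ_(ℓ)`. -/
abbrev Rl (ℓ : ℕ) : Type := ↥(GaloisRep.ratLocalizedAt ℓ)

/-- the conclusion of S19 for an abstract finite Galois module `M`. -/
def Conclusion (ℓ : ℕ) (M : Type) [AddCommGroup M] (act : Gal → M → M) : Prop :=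
  ∃ (H : Type) (_ : CommRing H) (_ : HopfAlgebra (GaloisRep.ratLocalizedAt ℓ) H),
      Module.Finite (GaloisRep.ratLocalizedAt ℓ) H ∧ Module.Flat (GaloisRep.ratLocalizedAt ℓ) H ∧
      Coalgebra.IsCocomm (GaloisRep.ratLocalizedAt ℓ) H ∧
      ∃ e : WithConv (H →ₐ[GaloisRep.ratLocalizedAt ℓ] AlgebraicClosure ℚ) ≃ M,
        (∀ f g, e (f * g) = e f + e g) ∧
        ∀ (σ : AlgebraicClosure ℚ ≃ₐ[ℚ] AlgebraicClosure ℚ)
          (f g : WithConv (H →ₐ[GaloisRep.ratLocalizedAt ℓ] AlgebraicClosure ℚ)),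
          (∀ h : H, g h = σ (f h)) → e g = act σ (e f)

end Fermat.Agent.S19.Formal
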