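import Mathlib

set_option autoImplicit false

/-!
# S19 / FORMAL : algebras realised as algebras of functions, and their tensor products
-/

namespace Fermat.Agent.S19.Formal

open scoped TensorProduct

variable {R L : Type} [CommRing R] [Field L] [Algebra R L]

/-- pull-back of functions, as an algebra hom. -/
def pull (R : Type) {L : Type} [CommRing R] [Field L] [Algebra R L] {X Y : Type} (φ : X → Y) :
    (Y → L) →ₐ[R] (X → L) :=
  AlgHom.pi (fun x => Pi.evalAlgHom R (fun _ => L) (φ x))

@[simp] theorem pull_apply {X Y : Type} (φ : X → Y) (f : Y → L) (x : X) :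
    pull R φ f x = f (φ x) := rfl

section box

variable {A B X Y : Type} [CommRing A] [Algebra R A] [CommRing B] [Algebra R B]

/-- external product of two function realisations. -/
noncomputable def box (φ : A →ₐ[R] (X → L)) (ψ : B →ₐ[R] (Y → L)) :
    A ⊗[R] B →ₐ[R] (X × Y → L) :=
  Algebra.TensorProduct.productMap ((pull R Prod.fst).comp φ) ((pull R Prod.snd).comp ψ)

@[simp] theorem box_tmul (φ : A →ₐ[R] (X → L)) (ψ : B →ₐ[R] (Y → L)) (a : A) (b : B)
    (p : X × Y) : box φ ψ (a ⊗ₜ b) p = φ a p.1 * ψ b p.2 := by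
  simp [box, Algebra.TensorProduct.productMap_apply_tmul]

/-- `φ` maps some finite `R`-basis to an `L`-linearly independent family. -/
def Good (φ : A →ₐ[R] (X → L)) : Prop :=
  ∃ (ι : Type) (_ : Fintype ι) (b : Module.Basis ι R A), LinearIndependent L (fun i => φ (b i))

theorem linearIndependent_prod {ι κ : Type} [Fintype ι] [Fintype κ] (f : ι → X → L)
    (g : κ → Y → L) (hf : LinearIndependent L f) (hg : LinearIndependent L g) :
    LinearIndependent L (fun p : ι × κ => fun q : X × Y => f p.1 q.1 * g p.2 q.2) := by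
  rw [Fintype.linearIndependent_iff] at hf hg ⊢
  intro c hc
  have h1 : ∀ y i, ∑ j, c (i, j) * g j y = 0 := by
    intro y
    apply hf
    funext x
    have := congrFun hc (x, y)
    simp only [Finset.sum_apply, Pi.smul_apply, smul_eq_mul, Pi.zero_apply,
      Fintype.sum_prod_type] at this ⊢
    rw [← this]
    apply Finset.sum_congr rfl
    intro i _
    rw [Finset.sum_mul]
    apply Finset.sum_congr rfl
    intro j _
    ring
  rintro ⟨i, j⟩
  apply hg (fun j => c (i, j))
  funext y
  simpa using h1 y i

theorem Good.box {φ : A →ₐ[R] (X → L)} {ψ : B →ₐ[R] (Y → L)} (hφ : Good φ) (hψ : Good ψ) :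
    Good (box φ ψ) := by
  obtain ⟨ι, _, b, hb⟩ := hφ
  obtain ⟨κ, _, b', hb'⟩ := hψ
  refine ⟨ι × κ, inferInstance, b.tensorProduct b', ?_⟩
  convert linearIndependent_prod _ _ hb hb' using 1
  funext p
  obtain ⟨i, j⟩ := p
  funext q
  rw [Module.Basis.tensorProduct_apply, box_tmul]

theorem Good.injective (hinj : Function.Injective (algebraMap R L)) {φ : A →ₐ[R] (X → L)}
    (hφ : Good φ) : Function.Injective φ := by
  obtain ⟨ι, _, b, hb⟩ := hφ
  rw [injective_iff_map_eq_zero]
  intro a ha
  rw [Fintype.linearIndependent_iff] at hb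
  have h1 : ∑ i, (algebraMap R L (b.repr a i)) • φ (b i) = 0 := by
    rw [← ha]
    conv_rhs => rw [← b.sum_repr a]
    rw [map_sum]
    apply Finset.sum_congr rfl
    intro i _
    rw [map_smul, algebraMap_smul]
  have h2 := hb _ h1
  have h3 : b.repr a = 0 := by
    ext i
    exact hinj (by rw [h2 i, Finsupp.zero_apply, map_zero])
  simpa using h3

end box

end Fermat.Agent.S19.Formal
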