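import Fermat.Agent.S19.Formal.Hopf2

set_option autoImplicit false
set_option linter.unusedSectionVars false

/-!
# S19 / FORMAL : generic closure lemmas and the points of `A`
-/

namespace Fermat.Agent.S19.Formal

open scoped TensorProduct

variable {R L M : Type} [CommRing R] [Field L] [Algebra R L] [AddCommGroup M]
variable {A : Type} [CommRing A] [Algebra R A]
variable {φ : A →ₐ[R] (M → L)}

/-- it is enough to check the comultiplication on algebra generators. -/
theorem comul_mem_of_generators {ι : Type} (c : ι → A)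
    (hc : Algebra.adjoin R (Set.range c) = ⊤)
    (h : ∀ i, pull R (fun p : M × M => p.1 + p.2) (φ (c i)) ∈ (mu2 φ).range) (a : A) :
    pull R (fun p : M × M => p.1 + p.2) (φ a) ∈ (mu2 φ).range := by
  have h1 : Algebra.adjoin R (Set.range c) ≤
      (mu2 φ).range.comap ((pull R (fun p : M × M => p.1 + p.2)).comp φ) := by
    apply Algebra.adjoin_le
    rintro _ ⟨i, rfl⟩
    exact h i
  have h2 : a ∈ Algebra.adjoin R (Set.range c) := by rw [hc]; trivial
  exact h1 h2

/-- a property of functions which is stable under the algebra operations holds on `A`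
if it holds on generators. -/
theorem mem_of_generators {ι : Type} (c : ι → A)
    (hc : Algebra.adjoin R (Set.range c) = ⊤) (S : Subalgebra R (M → L))
    (h : ∀ i, φ (c i) ∈ S) (a : A) : φ a ∈ S := by
  have h1 : Algebra.adjoin R (Set.range c) ≤ S.comap φ := by
    apply Algebra.adjoin_le
    rintro _ ⟨i, rfl⟩
    exact h i
  have h2 : a ∈ Algebra.adjoin R (Set.range c) := by rw [hc]; trivial
  exact h1 h2

theorem pull_nsmul_mem
    (hcomul : ∀ a, pull R (fun p : M × M => p.1 + p.2) (φ a) ∈ (mu2 φ).range)
    (hcounit : ∀ a, φ a 0 ∈ (algebraMap R L).range) (m : ℕ) :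
    ∀ a, pull R (fun x : M => m • x) (φ a) ∈ φ.range := by
  induction m with
  | zero =>
    intro a
    obtain ⟨r, hr⟩ := hcounit a
    refine (AlgHom.mem_range _).2 ⟨algebraMap R A r, ?_⟩
    funext x
    rw [AlgHom.commutes, Pi.algebraMap_apply, hr]
    simp
  | succ m ih =>
    intro a
    obtain ⟨t, ht⟩ := (AlgHom.mem_range _).1 (hcomul a)
    have key : ∀ t : A ⊗[R] A, (fun x : M => mu2 φ t (m • x, x)) ∈ φ.range := by
      intro t
      induction t using TensorProduct.induction_on with
      | zero => exact (AlgHom.mem_range _).2 ⟨0, by funext x; simp⟩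
      | tmul a b =>
        obtain ⟨a', ha'⟩ := (AlgHom.mem_range _).1 (ih a)
        refine (AlgHom.mem_range _).2 ⟨a' * b, ?_⟩
        funext x
        rw [map_mul, Pi.mul_apply, ha']
        simp
      | add s t hs ht =>
        obtain ⟨s', hs'⟩ := (AlgHom.mem_range _).1 hs
        obtain ⟨t', ht'⟩ := (AlgHom.mem_range _).1 ht
        refine (AlgHom.mem_range _).2 ⟨s' + t', ?_⟩
        funext x
        rw [map_add, Pi.add_apply, hs', ht']
        simp
    obtain ⟨a', ha'⟩ := (AlgHom.mem_range _).1 (key t)
    refine (AlgHom.mem_range _).2 ⟨a', ?_⟩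
    rw [ha']
    funext x
    have := congrFun ht (m • x, x)
    rw [this]
    simp [succ_nsmul]

theorem anti_mem_of_finite [Finite M]
    (hcomul : ∀ a, pull R (fun p : M × M => p.1 + p.2) (φ a) ∈ (mu2 φ).range)
    (hcounit : ∀ a, φ a 0 ∈ (algebraMap R L).range) (a : A) :
    pull R (fun x : M => -x) (φ a) ∈ φ.range := by
  have h := pull_nsmul_mem hcomul hcounit (Nat.card M - 1) a
  have h2 : (fun x : M => (Nat.card M - 1) • x) = fun x : M => -x := by
    funext x
    have h3 : Nat.card M • x = 0 := card_nsmul_eq_zero'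
    have h4 : 0 < Nat.card M := Nat.card_pos
    obtain ⟨k, hk⟩ : ∃ k, Nat.card M = k + 1 := ⟨Nat.card M - 1, by omega⟩
    rw [hk] at h3 ⊢
    rw [succ_nsmul] at h3
    simp only [Nat.add_sub_cancel]
    exact eq_neg_of_add_eq_zero_left h3
  rwa [h2] at h

/-- the points of `A` are the evaluations. -/
theorem ev_bijective [Finite M] (hgood : Good φ)
    (hsep : ∀ x y : M, (∀ a, φ a x = φ a y) → x = y) : Function.Bijective (ev φ) := by
  classical
  obtain ⟨ι, _, b, hb⟩ := hgood
  cases nonempty_fintype M
  have hinj : Function.Injective (ev φ) := by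
    intro x y h
    apply hsep
    intro a
    exact DFunLike.congr_fun h a
  have h1 : Fintype.card ι ≤ Fintype.card M := by
    have := hb.fintype_card_le_finrank
    rwa [Module.finrank_fintype_fun_eq_card] at this
  have e := b.constr (M' := L) L
  have : Module.Finite L (A →ₗ[R] L) := Module.Finite.equiv e
  have h2 : Module.finrank L (A →ₗ[R] L) = Fintype.card ι := by
    rw [← e.finrank_eq, Module.finrank_fintype_fun_eq_card]
  have hli := linearIndependent_toLinearMap R A L
  have : Finite (A →ₐ[R] L) := by
    rw [← Cardinal.lt_aleph0_iff_finite]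
    exact hli.lt_aleph0_of_finite
  cases nonempty_fintype (A →ₐ[R] L)
  have h3 : Fintype.card (A →ₐ[R] L) ≤ Fintype.card ι := by
    rw [← h2]
    exact hli.fintype_card_le_finrank
  apply hinj.bijective_of_nat_card_le
  rw [Nat.card_eq_fintype_card, Nat.card_eq_fintype_card]
  exact h3.trans h1

end Fermat.Agent.S19.Formal
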