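import Fermat.Agent.S19.Formal.Descent
import Fermat.Agent.S19.Formal.Points

set_option autoImplicit false
set_option linter.unusedSectionVars false

/-!
# S19 / FORMAL / core : from coordinate functions to the Hopf order
-/

namespace Fermat.Agent.S19.Formal

open scoped TensorProduct

variable (ℓ : ℕ) [Fact ℓ.Prime]

theorem gal_algebraMap_Rl (σ : Gal) (r : Rl ℓ) :
    σ (algebraMap (Rl ℓ) Qb r) = algebraMap (Rl ℓ) Qb r :=
  σ.commutes (r : ℚ)

/-- the algebra of equivariant functions. -/
def eqvAlg {M : Type} (act : Gal → M → M) : Subalgebra (Rl ℓ) (M → Qb) where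
  carrier := {f | ∀ σ x, f (act σ x) = σ (f x)}
  mul_mem' := by
    intro f g hf hg σ x
    simp only [Pi.mul_apply, map_mul, hf σ x, hg σ x]
  add_mem' := by
    intro f g hf hg σ x
    simp only [Pi.add_apply, map_add, hf σ x, hg σ x]
  algebraMap_mem' := by
    intro r σ x
    simp only [Pi.algebraMap_apply]
    exact (gal_algebraMap_Rl ℓ σ r).symm

theorem core_abstract {M : Type} [AddCommGroup M] [Finite M] (act : Gal → M → M)
    {A : Type} [CommRing A] [Algebra (Rl ℓ) A] (φ : A →ₐ[Rl ℓ] (M → Qb))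
    (hφ : Function.Injective φ)
    {ι : Type} [Fintype ι] (c : ι → A) (hc : Algebra.adjoin (Rl ℓ) (Set.range c) = ⊤)
    (γ : ι → ι → ι → Rl ℓ)
    (hceq : ∀ i σ x, φ (c i) (act σ x) = σ (φ (c i) x))
    (hcint : ∀ i, IsIntegral (Rl ℓ) (φ (c i)))
    (hcinj : ∀ x x', (∀ i, φ (c i) x = φ (c i) x') → x = x')
    (hcmul : ∀ i x x', φ (c i) (x + x') =
      ∑ j, ∑ k, algebraMap (Rl ℓ) Qb (γ i j k) * φ (c j) x * φ (c k) x') :
    Conclusion ℓ M act := by
  classical
  have hinjR := algebraMap_Rl_injective ℓ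
  have := isPrincipalIdealRing_Rl ℓ
  -- the action is bijective
  have hact_inj : ∀ σ, Function.Injective (act σ) := by
    intro σ x y h
    apply hcinj
    intro i
    apply σ.injective
    rw [← hceq, ← hceq, h]
  have hact_surj : ∀ σ, Function.Surjective (act σ) := fun σ =>
    Finite.injective_iff_surjective.1 (hact_inj σ)
  have hact0 : ∀ σ, act σ 0 = 0 := by
    intro σ
    have h1 : act σ 0 + act σ 0 = act σ 0 := by
      apply hcinj
      intro i
      rw [hcmul, hceq]
      conv_rhs => rw [← add_zero (0 : M), hcmul]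
      simp only [map_sum, map_mul, gal_algebraMap_Rl, hceq]
    simpa using h1
  -- equivariance
  have heqv : ∀ a σ x, φ a (act σ x) = σ (φ a x) := fun a =>
    mem_of_generators c hc (eqvAlg ℓ act) (fun i => hceq i) a
  -- finiteness
  have hfin : Module.Finite (Rl ℓ) A := by
    rw [Module.finite_def, ← Algebra.top_toSubmodule, ← hc]
    apply fg_adjoin_of_finite (Set.finite_range c)
    rintro _ ⟨i, rfl⟩
    exact (isIntegral_algHom_iff φ hφ).1 (hcint i)
  have htf : Module.IsTorsionFree (Rl ℓ) A := by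
    apply Module.IsTorsionFree.of_smul_eq_zero
    intro r a hra
    by_cases hr : r = 0
    · exact Or.inl hr
    right
    apply hφ
    rw [map_zero]
    funext x
    have h1 : φ (r • a) x = 0 := by rw [hra, map_zero]; rfl
    rw [map_smul, Pi.smul_apply, Algebra.smul_def] at h1
    rcases mul_eq_zero.1 h1 with h2 | h2
    · exact absurd (hinjR (by rw [h2, map_zero])) hr
    · exact h2
  obtain ⟨n, b⟩ := Module.basisOfFiniteTypeTorsionFree' (R := Rl ℓ) (M := A)
  have hfree : Module.Free (Rl ℓ) A := Module.Free.of_basis b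
  have hflat : Module.Flat (Rl ℓ) A := inferInstance
  have hgood : Good φ := by
    refine ⟨Fin n, inferInstance, b, ?_⟩
    apply linearIndependent_of_equivariant ℓ act hact_surj
    · intro i σ x
      exact heqv _ σ x
    · exact b.linearIndependent.map' φ.toLinearMap (LinearMap.ker_eq_bot.2 hφ)
  have hcomul : ∀ a, pull (Rl ℓ) (fun p : M × M => p.1 + p.2) (φ a) ∈ (mu2 φ).range := by
    apply comul_mem_of_generators c hc
    intro i
    refine (AlgHom.mem_range _).2 ⟨∑ j, ∑ k, γ i j k • (c j ⊗ₜ[Rl ℓ] c k), ?_⟩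
    funext p
    rw [pull_apply, hcmul]
    simp only [map_sum, Finset.sum_apply]
    apply Finset.sum_congr rfl
    intro j _
    apply Finset.sum_congr rfl
    intro k _
    rw [map_smul, Pi.smul_apply, mu2_tmul, Algebra.smul_def, mul_assoc]
  have hcounit : ∀ a, φ a 0 ∈ (algebraMap (Rl ℓ) Qb).range := by
    intro a
    apply mem_range_of_fixed_of_isIntegral
    · intro σ
      rw [← heqv, hact0]
    · exact (IsIntegral.of_finite (Rl ℓ) a).map (ev φ 0)
  have D : HopfData φ :=
    { inj := hinjR
      good := hgood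
      comul_mem := hcomul
      counit_mem := hcounit
      anti_mem := anti_mem_of_finite hcomul hcounit }
  have hbij : Function.Bijective (ev φ) := by
    apply ev_bijective hgood
    intro x y h
    exact hcinj x y fun i => h (c i)
  obtain ⟨H, i1, i2, h1, h2, h3, e, he1, he2⟩ := D.conclusion hfin hflat hbij
  exact ⟨H, i1, i2, h1, h2, h3, e, he1, fun σ f g h => he2 σ (act σ) (fun a x => heqv a σ x) f g h⟩

theorem core {M : Type} [AddCommGroup M] [Finite M] (act : Gal → M → M)
    {ι : Type} [Fintype ι] (c : ι → M → Qb) (γ : ι → ι → ι → Rl ℓ)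
    (hceq : ∀ i σ x, c i (act σ x) = σ (c i x))
    (hcint : ∀ i, IsIntegral (Rl ℓ) (c i))
    (hcinj : ∀ x x', (∀ i, c i x = c i x') → x = x')
    (hcmul : ∀ i x x', c i (x + x') =
      ∑ j, ∑ k, algebraMap (Rl ℓ) Qb (γ i j k) * c j x * c k x') :
    Conclusion ℓ M act := by
  let H : Subalgebra (Rl ℓ) (M → Qb) := Algebra.adjoin (Rl ℓ) (Set.range c)
  let c' : ι → H := fun i => ⟨c i, Algebra.subset_adjoin ⟨i, rfl⟩⟩
  apply core_abstract ℓ act H.val Subtype.val_injective c' ?_ γ hceq hcint hcinj hcmul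
  have h1 : (Algebra.adjoin (Rl ℓ) (Set.range c')).map H.val = (⊤ : Subalgebra (Rl ℓ) H).map H.val := by
    rw [AlgHom.map_adjoin, Algebra.map_top, Subalgebra.range_val, ← Set.range_comp]
    rfl
  exact Subalgebra.map_injective Subtype.val_injective h1

end Fermat.Agent.S19.Formal
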