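import Fermat.Agent.S19.Formal.RLoc

set_option autoImplicit false

/-!
# S19 / FORMAL / F2 : Galois descent of linear independence
-/

namespace Fermat.Agent.S19.Formal

/-- Equivariant functions which are linearly independent over `ℚ` are linearly independent
over `ℚ̄` (minimal relation argument). -/
theorem linearIndependent_of_equivariant_rat {X ι : Type} (act : Gal → X → X)
    (hact : ∀ σ, Function.Surjective (act σ)) (v : ι → X → Qb)
    (hv : ∀ i σ x, v i (act σ x) = σ (v i x)) (hli : LinearIndependent ℚ v) :
    LinearIndependent Qb v := by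
  classical
  have h1 : Algebra.IsAlgebraic ℚ Qb := AlgebraicClosure.isAlgebraic ℚ
  have h2 : IsAlgClosure ℚ Qb := ⟨inferInstance, h1⟩
  have hGal : IsGalois ℚ Qb := {}
  rw [linearIndependent_iff']
  intro s
  induction s using Finset.induction_on with
  | empty => intro g _ i hi; exact absurd hi (Finset.notMem_empty i)
  | insert a s ha ih =>
    intro g hg
    -- the conjugate relation
    have hconj : ∀ (t : Finset ι) (c : ι → Qb), ∑ i ∈ t, c i • v i = 0 →
        ∀ σ : Gal, ∑ i ∈ t, σ (c i) • v i = 0 := by
      intro t c hc σ
      funext y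
      obtain ⟨x, rfl⟩ := hact σ y
      have h1 := congrFun hc x
      have h2 := congrArg σ h1
      simp only [Finset.sum_apply, Pi.smul_apply, smul_eq_mul, Pi.zero_apply, map_sum, map_mul,
        map_zero] at h2 ⊢
      rw [← h2]
      exact Finset.sum_congr rfl fun i _ => by rw [hv]
    by_cases hga : g a = 0
    · have h1 : ∑ i ∈ s, g i • v i = 0 := by
        rw [Finset.sum_insert ha, hga, zero_smul, zero_add] at hg
        exact hg
      intro i hi
      rcases Finset.mem_insert.mp hi with rfl | hi
      · exact hga
      · exact ih g h1 i hi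
    · exfalso
      -- normalise
      set c : ι → Qb := fun i => (g a)⁻¹ * g i with hc
      have hca : c a = 1 := inv_mul_cancel₀ hga
      have hrel : ∑ i ∈ insert a s, c i • v i = 0 := by
        have : ∑ i ∈ insert a s, c i • v i = (g a)⁻¹ • ∑ i ∈ insert a s, g i • v i := by
          rw [Finset.smul_sum]
          exact Finset.sum_congr rfl fun i _ => by rw [hc, mul_smul]
        rw [this, hg, smul_zero]
      have hfix : ∀ i ∈ s, ∀ σ : Gal, σ (c i) = c i := by
        intro i hi σ
        have h1 := hconj _ c hrel σ
        have h2 : ∑ i ∈ s, (σ (c i) - c i) • v i = 0 := by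
          rw [Finset.sum_insert ha, hca, map_one] at h1
          rw [Finset.sum_insert ha, hca] at hrel
          have : ∑ i ∈ s, (σ (c i) - c i) • v i
              = ((1 : Qb) • v a + ∑ i ∈ s, σ (c i) • v i)
                - ((1 : Qb) • v a + ∑ i ∈ s, c i • v i) := by
            simp only [sub_smul, Finset.sum_sub_distrib]
            abel
          rw [this, h1, hrel, sub_zero]
        exact sub_eq_zero.mp (ih _ h2 i hi)
      have hrat : ∀ i ∈ insert a s, ∃ r : ℚ, algebraMap ℚ Qb r = c i := by
        intro i hi
        rcases Finset.mem_insert.mp hi with rfl | hi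
        · exact ⟨1, by rw [map_one, hca]⟩
        · exact (InfiniteGalois.mem_range_algebraMap_iff_fixed (k := ℚ) (K := Qb) (c i)).mpr
            (hfix i hi)
      choose! r hr using hrat
      have hrel' : ∑ i ∈ insert a s, r i • v i = 0 := by
        rw [← hrel]
        refine Finset.sum_congr rfl fun i hi => ?_
        rw [← hr i hi, algebraMap_smul]
      have h0 := (linearIndependent_iff'.mp hli) _ r hrel' a (Finset.mem_insert_self a s)
      have h1 := hr a (Finset.mem_insert_self a s)
      rw [h0, map_zero, hca] at h1
      exact zero_ne_one h1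

variable (ℓ : ℕ) [Fact ℓ.Prime]

/-- Equivariant functions which are linearly independent over `ℤ_(ℓ)` are linearly independent
over `ℚ̄`. -/
theorem linearIndependent_of_equivariant {X ι : Type} (act : Gal → X → X)
    (hact : ∀ σ, Function.Surjective (act σ)) (v : ι → X → Qb)
    (hv : ∀ i σ x, v i (act σ x) = σ (v i x)) (hli : LinearIndependent (Rl ℓ) v) :
    LinearIndependent Qb v := by
  have := isFractionRing_Rl ℓ
  exact linearIndependent_of_equivariant_rat act hact v hv
    ((LinearIndependent.iff_fractionRing (Rl ℓ) ℚ).mp hli)

end Fermat.Agent.S19.Formal
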