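import Fermat.Agent.S19.Formal.Box

set_option autoImplicit false
set_option linter.unusedSectionVars false

/-!
# S19 / FORMAL : a Hopf algebra structure on an algebra of functions on a group
-/

namespace Fermat.Agent.S19.Formal

open scoped TensorProduct

variable {R L M : Type} [CommRing R] [Field L] [Algebra R L] [AddCommGroup M]
variable {A : Type} [CommRing A] [Algebra R A]

/-- evaluation of 2-tensors. -/
noncomputable def mu2 (φ : A →ₐ[R] (M → L)) : A ⊗[R] A →ₐ[R] (M × M → L) :=
  box φ φ

/-- evaluation of 3-tensors. -/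
noncomputable def mu3 (φ : A →ₐ[R] (M → L)) :
    A ⊗[R] (A ⊗[R] A) →ₐ[R] (M × (M × M) → L) :=
  box (A := A) (B := A ⊗[R] A) (X := M) (Y := M × M) φ (mu2 φ)

/-- the hypotheses under which `A` is a Hopf algebra. -/
structure HopfData (φ : A →ₐ[R] (M → L)) : Prop where
  inj : Function.Injective (algebraMap R L)
  good : Good φ
  comul_mem : ∀ a, pull R (fun p : M × M => p.1 + p.2) (φ a) ∈ (mu2 φ).range
  counit_mem : ∀ a, φ a 0 ∈ (algebraMap R L).range
  anti_mem : ∀ a, pull R (fun x : M => -x) (φ a) ∈ φ.range

variable {φ : A →ₐ[R] (M → L)}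

@[simp] theorem mu2_tmul (a b : A) (p : M × M) :
    mu2 φ (a ⊗ₜ b) p = φ a p.1 * φ b p.2 := by
  simp [mu2]

@[simp] theorem mu3_tmul (a : A) (t : A ⊗[R] A) (p : M × (M × M)) :
    mu3 φ (a ⊗ₜ t) p = φ a p.1 * mu2 φ t p.2 :=
  box_tmul (A := A) (B := A ⊗[R] A) (X := M) (Y := M × M) φ (mu2 φ) a t p

namespace HopfData

variable (D : HopfData φ)

include D

theorem phi_injective : Function.Injective φ := D.good.injective D.inj

theorem mu2_injective : Function.Injective (mu2 φ) :=
  (D.good.box D.good).injective D.inj

theorem mu3_injective : Function.Injective (mu3 φ) :=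
  (Good.box (A := A) (B := A ⊗[R] A) (X := M) (Y := M × M) (φ := φ) (ψ := mu2 φ)
    D.good (D.good.box D.good)).injective D.inj

/-- comultiplication. -/
noncomputable def comulH : A →ₐ[R] A ⊗[R] A :=
  ((AlgEquiv.ofInjective (mu2 φ) D.mu2_injective).symm : (mu2 φ).range →ₐ[R] A ⊗[R] A).comp
    (((pull R (fun p : M × M => p.1 + p.2)).comp φ).codRestrict (mu2 φ).range
      (fun a => D.comul_mem a))

theorem mu2_comulH (a : A) (p : M × M) : mu2 φ (D.comulH a) p = φ a (p.1 + p.2) := by
  have h1 : mu2 φ (D.comulH a) = pull R (fun p : M × M => p.1 + p.2) (φ a) := by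
    unfold comulH
    simp only [AlgHom.comp_apply]
    have := (AlgEquiv.ofInjective (mu2 φ) D.mu2_injective).apply_symm_apply
      ((((pull R (fun p : M × M => p.1 + p.2)).comp φ).codRestrict (mu2 φ).range
      (fun a => D.comul_mem a)) a)
    exact congrArg Subtype.val this
  rw [h1]
  rfl

/-- counit. -/
noncomputable def counitH : A →ₐ[R] R :=
  ((AlgEquiv.ofInjective (Algebra.ofId R L) D.inj).symm : (Algebra.ofId R L).range →ₐ[R] R).comp
    (((Pi.evalAlgHom R (fun _ : M => L) 0).comp φ).codRestrict (Algebra.ofId R L).range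
      (fun a => D.counit_mem a))

theorem algebraMap_counitH (a : A) : algebraMap R L (D.counitH a) = φ a 0 := by
  unfold counitH
  simp only [AlgHom.comp_apply]
  have := (AlgEquiv.ofInjective (Algebra.ofId R L) D.inj).apply_symm_apply
    ((((Pi.evalAlgHom R (fun _ : M => L) 0).comp φ).codRestrict (Algebra.ofId R L).range
      (fun a => D.counit_mem a)) a)
  exact congrArg Subtype.val this

/-- antipode. -/
noncomputable def antiH : A →ₐ[R] A :=
  ((AlgEquiv.ofInjective φ D.phi_injective).symm : φ.range →ₐ[R] A).comp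
    (((pull R (fun x : M => -x)).comp φ).codRestrict φ.range (fun a => D.anti_mem a))

theorem phi_antiH (a : A) (x : M) : φ (D.antiH a) x = φ a (-x) := by
  have h1 : φ (D.antiH a) = pull R (fun x : M => -x) (φ a) := by
    unfold antiH
    simp only [AlgHom.comp_apply]
    have := (AlgEquiv.ofInjective φ D.phi_injective).apply_symm_apply
      ((((pull R (fun x : M => -x)).comp φ).codRestrict φ.range (fun a => D.anti_mem a)) a)
    exact congrArg Subtype.val this
  rw [h1]
  rfl

omit D in
theorem mu3_assoc_tmul (s : A ⊗[R] A) (b : A) (x y z : M) :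
    mu3 φ (Algebra.TensorProduct.assoc R R R A A A (s ⊗ₜ b)) (x, (y, z)) =
      mu2 φ s (x, y) * φ b z := by
  induction s using TensorProduct.induction_on with
  | zero => simp
  | tmul a a' => simp [mul_assoc]
  | add s t hs ht => simp only [TensorProduct.add_tmul, map_add, Pi.add_apply, hs, ht, add_mul]

theorem mu3_assoc_map_comulH (t : A ⊗[R] A) (x y z : M) :
    mu3 φ (Algebra.TensorProduct.assoc R R R A A A
      (Algebra.TensorProduct.map D.comulH (AlgHom.id R A) t)) (x, (y, z)) =
      mu2 φ t (x + y, z) := by
  induction t using TensorProduct.induction_on with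
  | zero => simp
  | tmul a b =>
    rw [Algebra.TensorProduct.map_tmul, mu3_assoc_tmul, D.mu2_comulH]
    simp
  | add s t hs ht => simp only [map_add, Pi.add_apply, hs, ht]

theorem mu3_map_comulH (t : A ⊗[R] A) (x y z : M) :
    mu3 φ (Algebra.TensorProduct.map (AlgHom.id R A) D.comulH t) (x, (y, z)) =
      mu2 φ t (x, y + z) := by
  induction t using TensorProduct.induction_on with
  | zero => simp
  | tmul a b =>
    rw [Algebra.TensorProduct.map_tmul, mu3_tmul, D.mu2_comulH]
    simp
  | add s t hs ht => simp only [map_add, Pi.add_apply, hs, ht]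

theorem coassocH : (Algebra.TensorProduct.assoc R R R A A A).toAlgHom.comp
      ((Algebra.TensorProduct.map D.comulH (.id R A)).comp D.comulH)
      = (Algebra.TensorProduct.map (.id R A) D.comulH).comp D.comulH := by
  apply AlgHom.ext
  intro h
  apply D.mu3_injective
  funext ⟨x, y, z⟩
  simp only [AlgHom.comp_apply]
  erw [D.mu3_assoc_map_comulH]
  rw [D.mu3_map_comulH, D.mu2_comulH, D.mu2_comulH, add_assoc]

theorem lid_map_counitH (t : A ⊗[R] A) (x : M) :
    φ (Algebra.TensorProduct.lid R A
      (Algebra.TensorProduct.map D.counitH (AlgHom.id R A) t)) x =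
      mu2 φ t (0, x) := by
  induction t using TensorProduct.induction_on with
  | zero => simp
  | tmul a b =>
    rw [Algebra.TensorProduct.map_tmul, Algebra.TensorProduct.lid_tmul, mu2_tmul,
      ← D.algebraMap_counitH]
    simp [Algebra.smul_def]
  | add s t hs ht =>
    simp only [map_add, Pi.add_apply, hs, ht]

theorem rid_map_counitH (t : A ⊗[R] A) (x : M) :
    φ (Algebra.TensorProduct.rid R R A
      (Algebra.TensorProduct.map (AlgHom.id R A) D.counitH t)) x =
      mu2 φ t (x, 0) := by
  induction t using TensorProduct.induction_on with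
  | zero => simp
  | tmul a b =>
    rw [Algebra.TensorProduct.map_tmul, Algebra.TensorProduct.rid_tmul, mu2_tmul,
      ← D.algebraMap_counitH]
    simp [Algebra.smul_def, mul_comm]
  | add s t hs ht =>
    simp only [map_add, Pi.add_apply, hs, ht]

theorem rTensorH : (Algebra.TensorProduct.map D.counitH (.id R A)).comp D.comulH
      = (Algebra.TensorProduct.lid R A).symm := by
  apply AlgHom.ext
  intro h
  apply (Algebra.TensorProduct.lid R A).injective
  apply D.phi_injective
  funext x
  simp only [AlgHom.comp_apply]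
  rw [D.lid_map_counitH, D.mu2_comulH]
  simp

theorem lTensorH : (Algebra.TensorProduct.map (.id R A) D.counitH).comp D.comulH
      = (Algebra.TensorProduct.rid R R A).symm := by
  apply AlgHom.ext
  intro h
  apply (Algebra.TensorProduct.rid R R A).injective
  apply D.phi_injective
  funext x
  simp only [AlgHom.comp_apply]
  rw [D.rid_map_counitH, D.mu2_comulH]
  simp

end HopfData

end Fermat.Agent.S19.Formal
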