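import Fermat.Agent.S19.Formal.Hopf

set_option autoImplicit false
set_option linter.unusedSectionVars false

/-!
# S19 / FORMAL : the Hopf algebra instance and its points
-/

namespace Fermat.Agent.S19.Formal

open scoped TensorProduct

variable {R L M : Type} [CommRing R] [Field L] [Algebra R L] [AddCommGroup M]
variable {A : Type} [CommRing A] [Algebra R A]
variable {φ : A →ₐ[R] (M → L)}

/-- evaluation at a point. -/
noncomputable def ev (φ : A →ₐ[R] (M → L)) (x : M) : A →ₐ[R] L :=
  (Pi.evalAlgHom R (fun _ : M => L) x).comp φ

@[simp] theorem ev_apply (x : M) (a : A) : ev φ x a = φ a x := rfl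

theorem lift_ev (x y : M) (t : A ⊗[R] A) :
    Algebra.TensorProduct.lift (ev φ x) (ev φ y) (fun _ _ => .all ..) t = mu2 φ t (x, y) := by
  induction t using TensorProduct.induction_on with
  | zero => simp
  | tmul a b => simp
  | add s t hs ht => simp only [map_add, Pi.add_apply, hs, ht]

theorem mu2_comm (t : A ⊗[R] A) (x y : M) :
    mu2 φ (TensorProduct.comm R A A t) (x, y) = mu2 φ t (y, x) := by
  induction t using TensorProduct.induction_on with
  | zero => simp
  | tmul a b => simp [mul_comm]
  | add s t hs ht => simp only [map_add, Pi.add_apply, hs, ht]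

namespace HopfData

variable (D : HopfData φ)

include D

theorem phi_mul'_rTensor (t : A ⊗[R] A) (x : M) :
    φ (LinearMap.mul' R A (D.antiH.toLinearMap.rTensor A t)) x = mu2 φ t (-x, x) := by
  induction t using TensorProduct.induction_on with
  | zero => simp
  | tmul a b => simp [D.phi_antiH]
  | add s t hs ht => simp only [map_add, Pi.add_apply, hs, ht]

theorem phi_mul'_lTensor (t : A ⊗[R] A) (x : M) :
    φ (LinearMap.mul' R A (D.antiH.toLinearMap.lTensor A t)) x = mu2 φ t (x, -x) := by
  induction t using TensorProduct.induction_on with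
  | zero => simp
  | tmul a b => simp [D.phi_antiH]
  | add s t hs ht => simp only [map_add, Pi.add_apply, hs, ht]

theorem phi_algebraMap_counitH (a : A) (x : M) :
    φ (algebraMap R A (D.counitH a)) x = φ a 0 := by
  rw [AlgHom.commutes, Pi.algebraMap_apply, D.algebraMap_counitH]

/-- the bialgebra structure. -/
@[reducible] noncomputable def bialg : Bialgebra R A :=
  Bialgebra.ofAlgHom D.comulH D.counitH D.coassocH D.rTensorH D.lTensorH

/-- the Hopf algebra structure. -/
@[reducible] noncomputable def hopf : HopfAlgebra R A :=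
  { D.bialg with
    antipode := D.antiH.toLinearMap
    mul_antipode_rTensor_comul := by
      apply LinearMap.ext
      intro a
      apply D.phi_injective
      funext x
      show φ (LinearMap.mul' R A (D.antiH.toLinearMap.rTensor A (D.comulH a))) x =
        φ (algebraMap R A (D.counitH a)) x
      rw [D.phi_mul'_rTensor, D.mu2_comulH, D.phi_algebraMap_counitH]
      simp
    mul_antipode_lTensor_comul := by
      apply LinearMap.ext
      intro a
      apply D.phi_injective
      funext x
      show φ (LinearMap.mul' R A (D.antiH.toLinearMap.lTensor A (D.comulH a))) x =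
        φ (algebraMap R A (D.counitH a)) x
      rw [D.phi_mul'_lTensor, D.mu2_comulH, D.phi_algebraMap_counitH]
      simp }

theorem conclusion (hfin : Module.Finite R A) (hflat : Module.Flat R A)
    (hbij : Function.Bijective (ev φ)) :
    ∃ (H : Type) (_ : CommRing H) (_ : HopfAlgebra R H),
      Module.Finite R H ∧ Module.Flat R H ∧ Coalgebra.IsCocomm R H ∧
      ∃ e : WithConv (H →ₐ[R] L) ≃ M,
        (∀ f g, e (f * g) = e f + e g) ∧
        ∀ (σ : L → L) (s : M → M), (∀ a x, φ a (s x) = σ (φ a x)) →
          ∀ (f g : WithConv (H →ₐ[R] L)), (∀ h : H, g h = σ (f h)) → e g = s (e f) := by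
  let _ := D.hopf
  refine ⟨A, inferInstance, D.hopf, hfin, hflat, ⟨?_⟩, ?_⟩
  · apply LinearMap.ext
    intro a
    apply D.mu2_injective
    funext ⟨x, y⟩
    show mu2 φ (TensorProduct.comm R A A (D.comulH a)) (x, y) = mu2 φ (D.comulH a) (x, y)
    rw [mu2_comm, D.mu2_comulH, D.mu2_comulH, add_comm]
  · let e0 : M ≃ WithConv (A →ₐ[R] L) :=
      (Equiv.ofBijective (ev φ) hbij).trans (WithConv.equiv _).symm
    have he0 : ∀ (f : WithConv (A →ₐ[R] L)) (a : A), f a = φ a (e0.symm f) := by
      intro f a
      have h1 : e0 (e0.symm f) = f := e0.apply_symm_apply f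
      conv_lhs => rw [← h1]
      rfl
    have hsep : ∀ x y : M, (∀ a, φ a x = φ a y) → x = y := by
      intro x y h
      apply hbij.1
      apply AlgHom.ext
      exact h
    refine ⟨e0.symm, ?_, ?_⟩
    · intro f g
      apply hsep
      intro a
      rw [← he0, AlgHom.convMul_apply]
      have hf : f.ofConv = ev φ (e0.symm f) := AlgHom.ext fun a => he0 f a
      have hg : g.ofConv = ev φ (e0.symm g) := AlgHom.ext fun a => he0 g a
      have h2 := lift_ev (φ := φ) (e0.symm f) (e0.symm g) (D.comulH a)
      rw [D.mu2_comulH] at h2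
      rw [← h2]
      congr 1
      simp only [hf, hg]
    · intro σ s hs f g hfg
      apply hsep
      intro a
      rw [← he0, hfg, he0, hs]

end HopfData

end Fermat.Agent.S19.Formal
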