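import Fermat.Agent.S19.Formal.Basic

set_option autoImplicit false

/-!
# S19 / FORMAL / F1 : ring facts on `ℤ_(ℓ) = GaloisRep.ratLocalizedAt ℓ`
-/

namespace Fermat.Agent.S19.Formal

variable (ℓ : ℕ) [Fact ℓ.Prime]

theorem rloc_mem_iff (c : ℚ) : c ∈ GaloisRep.ratLocalizedAt ℓ ↔ c.den.Coprime ℓ := Iff.rfl

theorem rloc_inv_natCast_mem {m : ℕ} (hm : m.Coprime ℓ) :
    ((m : ℚ))⁻¹ ∈ GaloisRep.ratLocalizedAt ℓ := by
  rw [rloc_mem_iff, Rat.inv_natCast_den]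
  split_ifs
  · simp
  · exact hm

theorem rloc_algebraMap_rat (r : Rl ℓ) : algebraMap (Rl ℓ) ℚ r = (r : ℚ) := rfl

theorem rloc_algebraMap_Qb (r : Rl ℓ) : algebraMap (Rl ℓ) Qb r = algebraMap ℚ Qb (r : ℚ) := rfl

theorem isFractionRing_Rl : IsFractionRing (Rl ℓ) ℚ := by
  refine IsFractionRing.of_field (R := Rl ℓ) (K := ℚ) fun z => ⟨(z.num : Rl ℓ), (z.den : Rl ℓ), ?_⟩
  rw [map_intCast, map_natCast]
  exact (Rat.num_div_den z).symm

theorem isPrincipalIdealRing_Rl : IsPrincipalIdealRing (Rl ℓ) := by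
  refine ⟨fun I => ?_⟩
  obtain ⟨n, hn⟩ := (IsPrincipalIdealRing.principal (I.comap (Int.castRingHom (Rl ℓ)))).principal
  refine ⟨⟨(n : Rl ℓ), ?_⟩⟩
  have hnI : (n : Rl ℓ) ∈ I := by
    have : n ∈ I.comap (Int.castRingHom (Rl ℓ)) := by
      rw [hn]; exact Submodule.mem_span_singleton_self n
    simpa using this
  apply le_antisymm
  · intro x hx
    have hd : ((x : ℚ).den : ℚ)⁻¹ ∈ GaloisRep.ratLocalizedAt ℓ := rloc_inv_natCast_mem ℓ x.2
    have h1 : (((x : ℚ).num : ℤ) : Rl ℓ) = (((x : ℚ).den : ℕ) : Rl ℓ) * x := by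
      apply Subtype.ext
      push_cast
      rw [mul_comm]
      exact (Rat.mul_den_eq_num (x : ℚ)).symm
    have h2 : (x : ℚ).num ∈ I.comap (Int.castRingHom (Rl ℓ)) := by
      rw [Ideal.mem_comap]
      simp only [eq_intCast]
      rw [h1]
      exact I.mul_mem_left _ hx
    rw [hn] at h2
    obtain ⟨k, hk⟩ := Submodule.mem_span_singleton.mp h2
    have h3 : x = ((k : Rl ℓ) * ⟨_, hd⟩) * (n : Rl ℓ) := by
      apply Subtype.ext
      push_cast
      have hk' : ((k : ℚ) * (n : ℚ)) = ((x : ℚ).num : ℚ) := by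
        rw [← hk]; simp
      have hden : ((x : ℚ).den : ℚ) ≠ 0 := by exact_mod_cast (x : ℚ).den_nz
      have hx' : (x : ℚ) = ((x : ℚ).num : ℚ) / ((x : ℚ).den : ℚ) := (Rat.num_div_den _).symm
      rw [mul_right_comm, hk', ← div_eq_mul_inv]
      exact hx'
    rw [h3]
    exact Submodule.smul_mem _ _ (Submodule.mem_span_singleton_self _)
  · rw [Submodule.span_singleton_le_iff_mem]
    exact hnI

theorem algebraMap_Rl_injective : Function.Injective (algebraMap (Rl ℓ) Qb) := by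
  intro a b hab
  rw [rloc_algebraMap_Qb, rloc_algebraMap_Qb] at hab
  exact Subtype.ext ((algebraMap ℚ Qb).injective hab)

theorem rloc_exists_rat_of_fixed (z : Qb) (hfix : ∀ σ : Gal, σ z = z) :
    ∃ c : ℚ, algebraMap ℚ Qb c = z := by
  have h1 : Algebra.IsAlgebraic ℚ Qb := AlgebraicClosure.isAlgebraic ℚ
  have h2 : IsAlgClosure ℚ Qb := ⟨inferInstance, h1⟩
  have h3 : IsGalois ℚ Qb := {}
  exact (InfiniteGalois.mem_range_algebraMap_iff_fixed z).2 hfix

/-- Galois-fixed + integral over `ℤ_(ℓ)` ⇒ in `ℤ_(ℓ)`. -/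
theorem mem_range_of_fixed_of_isIntegral (z : Qb) (hfix : ∀ σ : Gal, σ z = z)
    (hint : IsIntegral (Rl ℓ) z) : z ∈ (algebraMap (Rl ℓ) Qb).range := by
  obtain ⟨c, rfl⟩ := rloc_exists_rat_of_fixed z hfix
  have := isFractionRing_Rl ℓ
  have := isPrincipalIdealRing_Rl ℓ
  have hc : IsIntegral (Rl ℓ) c :=
    (isIntegral_algebraMap_iff (algebraMap ℚ Qb).injective).mp hint
  obtain ⟨y, hy⟩ := IsIntegrallyClosed.isIntegral_iff.mp hc
  exact ⟨y, by rw [rloc_algebraMap_Qb, ← hy]; rfl⟩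

theorem rloc_valuation_lt_one (A : ValuationSubring Qb) (hA : ((ℓ : Qb))⁻¹ ∉ A) :
    A.valuation (ℓ : Qb) < 1 := by
  have h1 : ¬ A.valuation ((ℓ : Qb))⁻¹ ≤ 1 := fun h => hA ((A.valuation_le_one_iff _).mp h)
  rw [map_inv₀] at h1
  by_contra h2
  push Not at h2
  exact h1 (inv_le_one_of_one_le₀ h2)

theorem rloc_intCast_mem (A : ValuationSubring Qb) (n : ℤ) : (n : Qb) ∈ A := intCast_mem A n

/-- a natural number prime to `ℓ` is a unit of `A`. -/
theorem rloc_inv_mem (A : ValuationSubring Qb) (hA : ((ℓ : Qb))⁻¹ ∉ A) {m : ℕ}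
    (hm : m.Coprime ℓ) : ((m : Qb))⁻¹ ∈ A := by
  by_contra hcon
  have h1 : ¬ A.valuation ((m : Qb))⁻¹ ≤ 1 := fun h => hcon ((A.valuation_le_one_iff _).mp h)
  rw [map_inv₀] at h1
  have hm1 : A.valuation (m : Qb) < 1 := by
    by_contra h2
    push Not at h2
    exact h1 (inv_le_one_of_one_le₀ h2)
  have hl1 := rloc_valuation_lt_one ℓ A hA
  have hbez : (m : ℤ) * Int.gcdA m ℓ + (ℓ : ℤ) * Int.gcdB m ℓ = 1 := by
    have := Int.gcd_eq_gcd_ab (m : ℤ) (ℓ : ℤ)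
    rw [← this]
    have : Int.gcd (m : ℤ) (ℓ : ℤ) = 1 := by simpa [Int.gcd_natCast_natCast] using hm
    rw [this]; rfl
  have hbez' : (m : Qb) * ((Int.gcdA m ℓ : ℤ) : Qb) + (ℓ : Qb) * ((Int.gcdB m ℓ : ℤ) : Qb) = 1 := by
    exact_mod_cast congrArg (fun t : ℤ => (t : Qb)) hbez
  have ha : A.valuation ((Int.gcdA m ℓ : ℤ) : Qb) ≤ 1 :=
    (A.valuation_le_one_iff _).mpr (rloc_intCast_mem A _)
  have hb : A.valuation ((Int.gcdB m ℓ : ℤ) : Qb) ≤ 1 :=
    (A.valuation_le_one_iff _).mpr (rloc_intCast_mem A _)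
  have h3 : A.valuation ((m : Qb) * ((Int.gcdA m ℓ : ℤ) : Qb)) < 1 := by
    rw [map_mul]
    exact mul_lt_one_of_lt_of_le hm1 ha
  have h4 : A.valuation ((ℓ : Qb) * ((Int.gcdB m ℓ : ℤ) : Qb)) < 1 := by
    rw [map_mul]
    exact mul_lt_one_of_lt_of_le hl1 hb
  have h5 := A.valuation.map_add_lt h3 h4
  rw [hbez', map_one] at h5
  exact lt_irrefl _ h5

/-- `ℤ_(ℓ)` lies in every valuation ring. -/
theorem algebraMap_Rl_mem (A : ValuationSubring Qb) (hA : ((ℓ : Qb))⁻¹ ∉ A) (r : Rl ℓ) :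
    algebraMap (Rl ℓ) Qb r ∈ A := by
  rw [rloc_algebraMap_Qb]
  have h : (r : ℚ) = ((r : ℚ).num : ℚ) * (((r : ℚ).den : ℚ))⁻¹ := by
    rw [← div_eq_mul_inv]; exact (Rat.num_div_den _).symm
  rw [h, map_mul, map_inv₀, map_intCast, map_natCast]
  exact A.mul_mem _ _ (rloc_intCast_mem A _) (rloc_inv_mem ℓ A hA r.2)

/-- Galois-fixed + in a valuation ring above `ℓ` ⇒ in `ℤ_(ℓ)`. -/
theorem mem_range_of_fixed_of_mem (A : ValuationSubring Qb) (hA : ((ℓ : Qb))⁻¹ ∉ A)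
    (z : Qb) (hfix : ∀ σ : Gal, σ z = z) (hz : z ∈ A) : z ∈ (algebraMap (Rl ℓ) Qb).range := by
  obtain ⟨c, rfl⟩ := rloc_exists_rat_of_fixed z hfix
  by_cases hc : c.den.Coprime ℓ
  · exact ⟨⟨c, hc⟩, rfl⟩
  · exfalso
    have hp : ℓ.Prime := Fact.out
    have hdvd : ℓ ∣ c.den := by
      by_contra h
      exact hc ((Nat.Prime.coprime_iff_not_dvd hp).mpr h).symm
    obtain ⟨d, hd⟩ := hdvd
    have hnum : (c.num.natAbs).Coprime ℓ := by
      have h1 : c.num.natAbs.Coprime c.den := c.reduced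
      exact Nat.Coprime.coprime_dvd_right ⟨d, hd⟩ h1
    -- `num / ℓ ∈ A`
    have hl0 : (ℓ : Qb) ≠ 0 := by exact_mod_cast hp.ne_zero
    have hd0 : (d : Qb) ≠ 0 := by
      intro h
      have : d = 0 := by exact_mod_cast h
      rw [this, mul_zero] at hd
      exact c.den_nz hd
    have hcq : algebraMap ℚ Qb c = (c.num : Qb) / ((ℓ : Qb) * (d : Qb)) := by
      conv_lhs => rw [← Rat.num_div_den c]
      rw [map_div₀, map_intCast, map_natCast, hd]
      push_cast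
      rfl
    have h1 : (c.num : Qb) * ((ℓ : Qb))⁻¹ ∈ A := by
      have : (c.num : Qb) * ((ℓ : Qb))⁻¹ = algebraMap ℚ Qb c * (d : Qb) := by
        rw [hcq]; field_simp
      rw [this]
      exact A.mul_mem _ _ hz (natCast_mem A d)
    have h2 : ((c.num.natAbs : ℕ) : Qb) * ((ℓ : Qb))⁻¹ ∈ A := by
      rcases Int.natAbs_eq c.num with h | h
      · have : ((c.num.natAbs : ℕ) : Qb) = (c.num : Qb) := by
          have h' := congrArg (fun t : ℤ => (t : Qb)) h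
          simp only [Int.cast_natCast] at h'
          exact h'.symm
        rw [this]; exact h1
      · have : ((c.num.natAbs : ℕ) : Qb) = -(c.num : Qb) := by
          have h' := congrArg (fun t : ℤ => (t : Qb)) h
          simp only [Int.cast_neg, Int.cast_natCast] at h'
          rw [h', neg_neg]
        rw [this, neg_mul]; exact A.neg_mem _ h1
    have h3 := rloc_inv_mem ℓ A hA hnum
    have hn0 : ((c.num.natAbs : ℕ) : Qb) ≠ 0 := by
      intro h
      have h0 : c.num.natAbs = 0 := by exact_mod_cast h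
      rw [h0] at hnum
      simp at hnum
      exact hp.one_lt.ne' hnum
    apply hA
    have : ((ℓ : Qb))⁻¹ = (((c.num.natAbs : ℕ) : Qb))⁻¹ * (((c.num.natAbs : ℕ) : Qb) * ((ℓ : Qb))⁻¹) := by
      field_simp
    rw [this]
    exact A.mul_mem _ _ h3 h2

end Fermat.Agent.S19.Formal
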